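import Mathlib
import Fermat.Agent.LT.T3.H893.NIntSpec

/-!
# Row LT, tower T3, leaf T3.18a.4.4 `N893.AffineC` (helper162) -- OFF-MAIN

`affineC162 K : T1.LocCompC K → AffineC K`, the Prop `AffineC` VERBATIM from
`LT/T3/H893/NIntSpec.lean` (helper893, sha256 1ddb5c4572c4; byte-identical copies of A0,
T1/Spec, T3/Spec, T3/EKSpec, T3/H736/ASSpec).

General form (`affine_integral162`): `R` a topological ring, locally compact and second
countable, with its Borel σ-algebra, `ν` an additive Haar measure, `a` a unit: there is a
constant `c` with `∫ Q (a x + r) dν = c ∫ Q dν` for all `r` and all integrable `Q`, and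
`x ↦ Q (a x + r)` is integrable.  (`x ↦ a x` is a topological automorphism of the additive
group, the image of `ν` is an additive Haar measure, uniqueness of the Haar measure;
translation invariance.)
-/

set_option autoImplicit false
set_option linter.style.haveILetI false

open MeasureTheory

noncomputable section

namespace Fermat.Agent.LT.T3.H162

/-- Left multiplication by a unit of a topological ring, as a topological automorphism of the
additive group. -/
def mulLeftEquiv162 {R : Type*} [Ring R] [TopologicalSpace R] [IsTopologicalRing R] (a : Rˣ) :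
    R ≃ₜ+ R where
  toFun x := (a : R) * x
  invFun x := ((a⁻¹ : Rˣ) : R) * x
  left_inv x := by simp
  right_inv x := by simp
  map_add' x y := mul_add _ _ _
  continuous_toFun := continuous_const.mul continuous_id
  continuous_invFun := continuous_const.mul continuous_id

@[simp] theorem mulLeftEquiv162_apply {R : Type*} [Ring R] [TopologicalSpace R]
    [IsTopologicalRing R] (a : Rˣ) (x : R) : mulLeftEquiv162 a x = (a : R) * x := rfl

/-- **Affine substitution in a Haar integral.** -/
theorem affine_integral162 {R : Type*} [Ring R] [TopologicalSpace R] [IsTopologicalRing R]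
    [LocallyCompactSpace R] [SecondCountableTopology R] [MeasurableSpace R] [BorelSpace R]
    (ν : Measure R) [ν.IsAddHaarMeasure] (a : Rˣ) :
    ∃ c : ℂ, ∀ (r : R) (Q : R → ℂ), Integrable Q ν →
      Integrable (fun x : R => Q ((a : R) * x + r)) ν ∧
        ∫ x, Q ((a : R) * x + r) ∂ν = c * ∫ X, Q X ∂ν := by
  -- the image measure
  set e : R ≃ₜ+ R := mulLeftEquiv162 a with he
  have hmeas : Measurable (e : R → R) := e.continuous.measurable
  haveI : (ν.map e).IsAddHaarMeasure := ContinuousAddEquiv.isAddHaarMeasure_map ν e
  have hmap : ν.map e = Measure.addHaarScalarFactor (ν.map e) ν • ν :=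
    Measure.isAddLeftInvariant_eq_smul (ν.map e) ν
  set κ := Measure.addHaarScalarFactor (ν.map e) ν with hκ
  refine ⟨((κ : ℝ) : ℂ), fun r Q hQ => ?_⟩
  -- the measurable embedding
  have hemb : MeasurableEmbedding (e : R → R) := e.toHomeomorph.measurableEmbedding
  -- `Q` is integrable for the image measure
  have hQ' : Integrable Q (ν.map e) := by
    rw [hmap]
    exact hQ.smul_measure (by simp)
  -- `Q ∘ e` is integrable
  have hQe : Integrable (fun x : R => Q ((a : R) * x)) ν := by
    have := (hemb.integrable_map_iff (μ := ν) (g := Q)).mp hQ'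
    exact this
  -- translation: `a x + r = a (x + a⁻¹ r)`
  have htr : ∀ x : R, (a : R) * x + r = (a : R) * (x + ((a⁻¹ : Rˣ) : R) * r) := by
    intro x
    rw [mul_add, ← mul_assoc, Units.mul_inv, one_mul]
  have hfun : (fun x : R => Q ((a : R) * x + r))
      = fun x : R => (fun y : R => Q ((a : R) * y)) (x + ((a⁻¹ : Rˣ) : R) * r) := by
    funext x
    rw [htr x]
  constructor
  · rw [hfun]
    exact hQe.comp_add_right _
  · rw [hfun, integral_add_right_eq_self (fun y : R => Q ((a : R) * y))]
    have h1 : ∫ y, Q ((a : R) * y) ∂ν = ∫ X, Q X ∂(ν.map e) :=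
      (hemb.integral_map (μ := ν) Q).symm
    rw [h1, hmap, integral_smul_nnreal_measure]
    simp [NNReal.smul_def]

open Fermat.Agent.LT.H556.A0 Fermat.Agent.LT

/-- **T3.18a.4.4 `N893.AffineC`** from local compactness (tower T1). -/
theorem affineC162 (K : Type) [Field K] [NumberField K] (h : T1.LocCompC K) :
    T3.AS.N893.AffineC K := by
  obtain ⟨⟨hlc, -, hsc⟩, -⟩ := h
  haveI := hlc
  haveI := hsc
  letI : MeasurableSpace (Adl K) := borel (Adl K)
  haveI : BorelSpace (Adl K) := ⟨rfl⟩
  intro ν hν a
  haveI := hν
  exact affine_integral162 ν a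

end Fermat.Agent.LT.T3.H162

end
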